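/-
PROGRAMME III (S48, Deligne–Serre), kernel DS2 (Rankin-type bound), interface between the analytic
half DS2a and the arithmetic half DS2b (helper20).

* `DirichletBound a` : the Dirichlet series `∑ ‖a n‖² n⁻ˢ` converges for real `1 < s ≤ 2` and is
  bounded by `C / (s - 1)` there (output of DS2a for the `q`-coefficients of a weight-one cusp
  form; input of DS2b);
* `HeckeRel N e a` : the Hecke relations away from `N` (the frozen hypothesis `hT` of S48 with
  `e p = ε (p : ZMod N)`).
-/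
import Mathlib

set_option autoImplicit false

namespace Fermat.Agent.DS.Rankin

/-- **the interface DS2a → DS2b**: `∑ ‖a n‖² / n ^ s ≤ C / (s - 1)` for real `s ∈ (1, 2]`, with
summability -/
def DirichletBound (a : ℕ → ℂ) : Prop :=
  ∃ C : ℝ, ∀ s : ℝ, 1 < s → s ≤ 2 →
    Summable (fun n : ℕ => ‖a n‖ ^ 2 / (n : ℝ) ^ s) ∧
      ∑' n : ℕ, ‖a n‖ ^ 2 / (n : ℝ) ^ s ≤ C / (s - 1)

/-- **the Hecke relations away from `N`** for a sequence `a` and a "character" `e` -/
def HeckeRel (N : ℕ) (e a : ℕ → ℂ) : Prop :=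
  ∀ p : ℕ, p.Prime → ¬ p ∣ N → ∀ n : ℕ,
    a (p * n) + e p * (if p ∣ n then a (n / p) else 0) = a p * a n

end Fermat.Agent.DS.Rankin
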